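/-
S55, block F-abs (helper71).  ABSTRACT INTERFACE.

`CohTheory k Γ`  = what block F-con has to provide for a group with levels: open subgroups,
`H1`, `H2` (functorial, `k`-linear), connecting maps, the 9-term exact sequence, effacement of `H1`.
`LocMap`         = localisation maps along `r : D →* G`, natural, commuting with connecting maps.
`Datum p`        = a global group, finitely many local groups, the cyclotomic character.
Everything in `Fermat/Agent/S55/F/` is proved from these structures only (no cochains).
-/
import Mathlib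
import Fermat.Prelude.Def_GroupCohomology_Selmer

set_option autoImplicit false

namespace Fermat.Agent.S55.F

open Representation Module

noncomputable section

/-! ### Representations: basic constructions -/

section Reps

variable {k : Type} [Field k] {Γ : Type} [Group Γ]
variable {V W : Type} [AddCommGroup V] [Module k V] [AddCommGroup W] [Module k W]

/-- restriction of a representation along a group homomorphism -/
abbrev res {D : Type} [Group D] (r : D →* Γ) (ρ : Representation k Γ V) : Representation k D V :=
  ρ.comp r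

/-- restriction of an intertwining map -/
def resMap {D : Type} [Group D] (r : D →* Γ) {ρ : Representation k Γ V}
    {σ : Representation k Γ W} (f : ρ.IntertwiningMap σ) :
    (res r ρ).IntertwiningMap (res r σ) :=
  ⟨f.toLinearMap, fun d => f.isIntertwining' (r d)⟩

@[simp] lemma resMap_apply {D : Type} [Group D] (r : D →* Γ) {ρ : Representation k Γ V}
    {σ : Representation k Γ W} (f : ρ.IntertwiningMap σ) (x : V) : resMap r f x = f x := rfl

/-- the map induced on invariants -/
def invMap {ρ : Representation k Γ V} {σ : Representation k Γ W} (f : ρ.IntertwiningMap σ) :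
    ρ.invariants →ₗ[k] σ.invariants :=
  f.toLinearMap.restrict fun x hx g => by
    rw [IntertwiningMap.toLinearMap_apply, ← f.isIntertwining, hx g]

@[simp] lemma invMap_coe {ρ : Representation k Γ V} {σ : Representation k Γ W}
    (f : ρ.IntertwiningMap σ) (x : ρ.invariants) : (invMap f x : W) = f x := rfl

/-- invariants of `Γ` are invariants of `D` -/
def invRes {D : Type} [Group D] (r : D →* Γ) (ρ : Representation k Γ V) :
    ρ.invariants →ₗ[k] (res r ρ).invariants :=
  LinearMap.id.restrict fun _ hx d => hx (r d)

@[simp] lemma invRes_coe {D : Type} [Group D] (r : D →* Γ) (ρ : Representation k Γ V)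
    (x : ρ.invariants) : (invRes r ρ x : V) = x := rfl

/-- the one-dimensional representation given by a character (`μ_p` when `ω` is cyclotomic) -/
abbrev mu (ω : Γ →* kˣ) : Representation k Γ k := (Representation.trivial k Γ k).twist ω

/-- `N' = Hom(N, μ)`, same definition as the prelude's `Rep.dualTwist` -/
abbrev dt (ω : Γ →* kˣ) (ρ : Representation k Γ V) : Representation k Γ (Module.Dual k V) :=
  ρ.dual.twist ω

/-- coinduction from a subgroup -/
abbrev coindS (U : Subgroup Γ) {N : Type} [AddCommGroup N] [Module k N]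
    (σ : Representation k U N) : Representation k Γ (coindV U.subtype σ) :=
  coind U.subtype σ

/-- `CoInd_U^Γ Res_U ρ` -/
abbrev coindRes (U : Subgroup Γ) (ρ : Representation k Γ V) :
    Representation k Γ (coindV U.subtype (res U.subtype ρ)) :=
  coind U.subtype (res U.subtype ρ)

variable (k) in
/-- the permutation module `X_U = CoInd_U^Γ k` -/
abbrev X (U : Subgroup Γ) : Representation k Γ (coindV U.subtype (Representation.trivial k U k)) :=
  coind U.subtype (Representation.trivial k U k)

/-- the unit `η : N → CoInd_U Res_U N`, `n ↦ (γ ↦ γ n)` -/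
def unit (U : Subgroup Γ) (ρ : Representation k Γ V) : ρ.IntertwiningMap (coindRes U ρ) where
  toFun n := ⟨fun γ => ρ γ n, fun u γ => by simp [res]⟩
  map_add' a b := by ext; simp
  map_smul' c a := by ext; simp
  isIntertwining' g := by
    ext n γ
    change ρ γ (ρ g n) = ρ (γ * g) n
    rw [map_mul]; rfl

@[simp] lemma unit_apply_coe (U : Subgroup Γ) (ρ : Representation k Γ V) (n : V) (γ : Γ) :
    (unit U ρ n).1 γ = ρ γ n := rfl

/-- a short exact sequence of representations -/
structure SES {R P M : Type} [AddCommGroup R] [Module k R] [AddCommGroup P] [Module k P]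
    [AddCommGroup M] [Module k M] (ρR : Representation k Γ R) (ρP : Representation k Γ P)
    (ρM : Representation k Γ M) where
  i : ρR.IntertwiningMap ρP
  π : ρP.IntertwiningMap ρM
  inj : Function.Injective i
  surj : Function.Surjective π
  exact : Function.Exact i π

/-- restriction of a short exact sequence -/
def SES.res {R P M : Type} [AddCommGroup R] [Module k R] [AddCommGroup P] [Module k P]
    [AddCommGroup M] [Module k M] {ρR : Representation k Γ R} {ρP : Representation k Γ P}
    {ρM : Representation k Γ M} (S : SES ρR ρP ρM) {D : Type} [Group D] (r : D →* Γ) :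
    SES (F.res r ρR) (F.res r ρP) (F.res r ρM) where
  i := resMap r S.i
  π := resMap r S.π
  inj := S.inj
  surj := S.surj
  exact := S.exact

end Reps

/-! ### The interface with block F-con -/

/-- Cohomology in degrees `≤ 2` of a group with a notion of open subgroup.  `H0` is
`Representation.invariants`.  The exactness axioms are only required for representations with
open kernel (`Adm`). -/
structure CohTheory (k : Type) [Field k] (Γ : Type) [Group Γ] where
  IsOpen : Subgroup Γ → Prop
  isOpen_top : IsOpen ⊤
  isOpen_inf : ∀ {U V : Subgroup Γ}, IsOpen U → IsOpen V → IsOpen (U ⊓ V)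
  isOpen_mono : ∀ {U V : Subgroup Γ}, U ≤ V → IsOpen U → IsOpen V
  finiteIndex : ∀ {U : Subgroup Γ}, IsOpen U → U.FiniteIndex
  isOpen_normalCore : ∀ {U : Subgroup Γ}, IsOpen U → IsOpen U.normalCore
  H1 : ∀ {V : Type} [AddCommGroup V] [Module k V], Representation k Γ V → ModuleCat.{0} k
  H2 : ∀ {V : Type} [AddCommGroup V] [Module k V], Representation k Γ V → ModuleCat.{0} k
  map1 : ∀ {V W : Type} [AddCommGroup V] [Module k V] [AddCommGroup W] [Module k W]
    {ρ : Representation k Γ V} {σ : Representation k Γ W},
    ρ.IntertwiningMap σ →ₗ[k] (H1 ρ →ₗ[k] H1 σ)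
  map2 : ∀ {V W : Type} [AddCommGroup V] [Module k V] [AddCommGroup W] [Module k W]
    {ρ : Representation k Γ V} {σ : Representation k Γ W},
    ρ.IntertwiningMap σ →ₗ[k] (H2 ρ →ₗ[k] H2 σ)
  map1_id : ∀ {V : Type} [AddCommGroup V] [Module k V] (ρ : Representation k Γ V),
    map1 (IntertwiningMap.id ρ) = LinearMap.id
  map2_id : ∀ {V : Type} [AddCommGroup V] [Module k V] (ρ : Representation k Γ V),
    map2 (IntertwiningMap.id ρ) = LinearMap.id
  map1_comp : ∀ {V W Z : Type} [AddCommGroup V] [Module k V] [AddCommGroup W] [Module k W]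
    [AddCommGroup Z] [Module k Z] {ρ : Representation k Γ V} {σ : Representation k Γ W}
    {τ : Representation k Γ Z} (g : σ.IntertwiningMap τ) (f : ρ.IntertwiningMap σ),
    map1 (g.comp f) = map1 g ∘ₗ map1 f
  map2_comp : ∀ {V W Z : Type} [AddCommGroup V] [Module k V] [AddCommGroup W] [Module k W]
    [AddCommGroup Z] [Module k Z] {ρ : Representation k Γ V} {σ : Representation k Γ W}
    {τ : Representation k Γ Z} (g : σ.IntertwiningMap τ) (f : ρ.IntertwiningMap σ),
    map2 (g.comp f) = map2 g ∘ₗ map2 f
  δ0 : ∀ {R P M : Type} [AddCommGroup R] [Module k R] [AddCommGroup P] [Module k P]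
    [AddCommGroup M] [Module k M] {ρR : Representation k Γ R} {ρP : Representation k Γ P}
    {ρM : Representation k Γ M}, SES ρR ρP ρM → (ρM.invariants →ₗ[k] H1 ρR)
  δ1 : ∀ {R P M : Type} [AddCommGroup R] [Module k R] [AddCommGroup P] [Module k P]
    [AddCommGroup M] [Module k M] {ρR : Representation k Γ R} {ρP : Representation k Γ P}
    {ρM : Representation k Γ M}, SES ρR ρP ρM → (H1 ρM →ₗ[k] H2 ρR)
  exact_inv_δ0 : ∀ {R P M : Type} [AddCommGroup R] [Module k R] [AddCommGroup P] [Module k P]
    [AddCommGroup M] [Module k M] {ρR : Representation k Γ R} {ρP : Representation k Γ P}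
    {ρM : Representation k Γ M} (S : SES ρR ρP ρM), IsOpen ρP.ker →
    Function.Exact (invMap S.π) (δ0 S)
  exact_δ0_map1 : ∀ {R P M : Type} [AddCommGroup R] [Module k R] [AddCommGroup P] [Module k P]
    [AddCommGroup M] [Module k M] {ρR : Representation k Γ R} {ρP : Representation k Γ P}
    {ρM : Representation k Γ M} (S : SES ρR ρP ρM), IsOpen ρP.ker →
    Function.Exact (δ0 S) (map1 S.i)
  exact_map1_map1 : ∀ {R P M : Type} [AddCommGroup R] [Module k R] [AddCommGroup P] [Module k P]
    [AddCommGroup M] [Module k M] {ρR : Representation k Γ R} {ρP : Representation k Γ P}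
    {ρM : Representation k Γ M} (S : SES ρR ρP ρM), IsOpen ρP.ker →
    Function.Exact (map1 S.i) (map1 S.π)
  exact_map1_δ1 : ∀ {R P M : Type} [AddCommGroup R] [Module k R] [AddCommGroup P] [Module k P]
    [AddCommGroup M] [Module k M] {ρR : Representation k Γ R} {ρP : Representation k Γ P}
    {ρM : Representation k Γ M} (S : SES ρR ρP ρM), IsOpen ρP.ker →
    Function.Exact (map1 S.π) (δ1 S)
  exact_δ1_map2 : ∀ {R P M : Type} [AddCommGroup R] [Module k R] [AddCommGroup P] [Module k P]
    [AddCommGroup M] [Module k M] {ρR : Representation k Γ R} {ρP : Representation k Γ P}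
    {ρM : Representation k Γ M} (S : SES ρR ρP ρM), IsOpen ρP.ker →
    Function.Exact (δ1 S) (map2 S.i)
  exact_map2_map2 : ∀ {R P M : Type} [AddCommGroup R] [Module k R] [AddCommGroup P] [Module k P]
    [AddCommGroup M] [Module k M] {ρR : Representation k Γ R} {ρP : Representation k Γ P}
    {ρM : Representation k Γ M} (S : SES ρR ρP ρM), IsOpen ρP.ker →
    Function.Exact (map2 S.i) (map2 S.π)
  /-- every class in `H1` dies in `CoInd_V Res_V` for all sufficiently small open `V` -/
  efface : ∀ {V : Type} [AddCommGroup V] [Module k V] (ρ : Representation k Γ V),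
    IsOpen ρ.ker → ∀ x : H1 ρ, ∃ V₀ : Subgroup Γ, IsOpen V₀ ∧
      ∀ U : Subgroup Γ, IsOpen U → U ≤ V₀ → map1 (unit U ρ) x = 0

/-- Localisation maps. -/
structure LocMap {k : Type} [Field k] {G D : Type} [Group G] [Group D]
    (CG : CohTheory k G) (CD : CohTheory k D) (r : D →* G) where
  cont : ∀ {U : Subgroup G}, CG.IsOpen U → CD.IsOpen (U.comap r)
  loc1 : ∀ {V : Type} [AddCommGroup V] [Module k V] (ρ : Representation k G V),
    CG.H1 ρ →ₗ[k] CD.H1 (res r ρ)
  loc2 : ∀ {V : Type} [AddCommGroup V] [Module k V] (ρ : Representation k G V),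
    CG.H2 ρ →ₗ[k] CD.H2 (res r ρ)
  loc1_map1 : ∀ {V W : Type} [AddCommGroup V] [Module k V] [AddCommGroup W] [Module k W]
    {ρ : Representation k G V} {σ : Representation k G W} (f : ρ.IntertwiningMap σ) (x : CG.H1 ρ),
    loc1 σ (CG.map1 f x) = CD.map1 (resMap r f) (loc1 ρ x)
  loc2_map2 : ∀ {V W : Type} [AddCommGroup V] [Module k V] [AddCommGroup W] [Module k W]
    {ρ : Representation k G V} {σ : Representation k G W} (f : ρ.IntertwiningMap σ) (x : CG.H2 ρ),
    loc2 σ (CG.map2 f x) = CD.map2 (resMap r f) (loc2 ρ x)
  loc1_δ0 : ∀ {R P M : Type} [AddCommGroup R] [Module k R] [AddCommGroup P] [Module k P]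
    [AddCommGroup M] [Module k M] {ρR : Representation k G R} {ρP : Representation k G P}
    {ρM : Representation k G M} (S : SES ρR ρP ρM), CG.IsOpen ρP.ker → ∀ m : ρM.invariants,
    loc1 ρR (CG.δ0 S m) = CD.δ0 (S.res r) (invRes r ρM m)
  loc2_δ1 : ∀ {R P M : Type} [AddCommGroup R] [Module k R] [AddCommGroup P] [Module k P]
    [AddCommGroup M] [Module k M] {ρR : Representation k G R} {ρP : Representation k G P}
    {ρM : Representation k G M} (S : SES ρR ρP ρM), CG.IsOpen ρP.ker → ∀ x : CG.H1 ρM,
    loc2 ρR (CG.δ1 S x) = CD.δ1 (S.res r) (loc1 ρM x)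

/-- The abstract arithmetic situation. -/
structure Datum (p : ℕ) [Fact p.Prime] where
  G : Type
  [grpG : Group G]
  CG : CohTheory (ZMod p) G
  ι : Type
  [finι : Fintype ι]
  D : ι → Type
  [grpD : ∀ v, Group (D v)]
  CD : ∀ v, CohTheory (ZMod p) (D v)
  r : ∀ v, D v →* G
  loc : ∀ v, LocMap CG (CD v) (r v)
  ω : G →* (ZMod p)ˣ
  ω_open : CG.IsOpen ω.ker
  /-- `1` at the place `p`, `0` elsewhere -/
  dl : ι → ℕ

attribute [instance] Datum.grpG Datum.finι Datum.grpD

end

end Fermat.Agent.S55.F
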