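/-
S55 / F-abs / CHI : finiteness and Euler characteristic `χ = h⁰ - h¹ + h²`; `χ` is subadditive and
the defect is the failure of right exactness of `H²`.
-/
import Fermat.Agent.S55.F.Basic

set_option autoImplicit false

namespace Fermat.Agent.S55.F

open Representation Module

noncomputable section

/-! ### linear algebra of exact sequences -/

section LinAlg

variable {k : Type} [Field k] {A B C : Type} [AddCommGroup A] [Module k A] [AddCommGroup B]
  [Module k B] [AddCommGroup C] [Module k C]

/-- rank-nullity at one spot of an exact sequence -/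
theorem finrank_eq_of_exact (f : A →ₗ[k] B) (g : B →ₗ[k] C) (h : Function.Exact f g)
    [Module.Finite k B] :
    finrank k B = finrank k (LinearMap.range f) + finrank k (LinearMap.range g) := by
  have h1 := LinearMap.finrank_range_add_finrank_ker g
  rw [LinearMap.exact_iff.1 h] at h1
  omega

/-- the middle term of an exact sequence with finite dimensional ends is finite dimensional -/
theorem finite_of_exact (f : A →ₗ[k] B) (g : B →ₗ[k] C) (h : Function.Exact f g)
    [Module.Finite k A] [Module.Finite k C] : Module.Finite k B := by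
  have hex : Function.Exact f g.rangeRestrict := by
    intro y
    rw [← h y]
    constructor
    · intro hy
      exact congrArg Subtype.val hy
    · intro hy
      exact Subtype.ext hy
  exact Module.Finite.of_exact hex g.surjective_rangeRestrict

theorem finrank_range_of_injective (f : A →ₗ[k] B) (hf : Function.Injective f) :
    finrank k (LinearMap.range f) = finrank k A :=
  LinearMap.finrank_range_of_inj hf

end LinAlg

/-! ### left exactness of invariants -/

section Inv

variable {k : Type} [Field k] {Γ : Type} [Group Γ]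
variable {R P M : Type} [AddCommGroup R] [Module k R] [AddCommGroup P] [Module k P]
  [AddCommGroup M] [Module k M] {ρR : Representation k Γ R} {ρP : Representation k Γ P}
  {ρM : Representation k Γ M}

theorem SES.invMap_injective (S : SES ρR ρP ρM) : Function.Injective (invMap S.i) := by
  intro x y hxy
  apply Subtype.ext
  apply S.inj
  have := congrArg Subtype.val hxy
  simpa using this

theorem SES.invMap_exact (S : SES ρR ρP ρM) : Function.Exact (invMap S.i) (invMap S.π) := by
  intro y
  constructor
  · intro hy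
    have hy' : S.π (y : P) = 0 := by
      have := congrArg Subtype.val hy
      simpa using this
    obtain ⟨x, hx⟩ := (S.exact (y : P)).1 hy'
    refine ⟨⟨x, fun g => ?_⟩, ?_⟩
    · apply S.inj
      rw [S.i.isIntertwining, hx]
      exact y.2 g
    · apply Subtype.ext
      simpa using hx
  · rintro ⟨x, rfl⟩
    apply Subtype.ext
    have : S.π (S.i (x : R)) = 0 := (S.exact _).2 ⟨_, rfl⟩
    simpa using this

theorem SES.chi_finite_left (S : SES ρR ρP ρM) [Module.Finite k P] : Module.Finite k R :=
  Module.Finite.of_injective S.i.toLinearMap S.inj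

theorem SES.chi_finite_right (S : SES ρR ρP ρM) [Module.Finite k P] : Module.Finite k M :=
  Module.Finite.of_surjective S.π.toLinearMap S.surj

end Inv

namespace CohTheory

variable {k : Type} [Field k] {Γ : Type} [Group Γ] (C : CohTheory k Γ)
variable {V W : Type} [AddCommGroup V] [Module k V] [AddCommGroup W] [Module k W]

/-- `H¹` and `H²` are finite dimensional -/
def FinCoh (ρ : Representation k Γ V) : Prop :=
  Module.Finite k (C.H1 ρ) ∧ Module.Finite k (C.H2 ρ)

/-- the Euler characteristic -/
def chi (ρ : Representation k Γ V) : ℤ :=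
  (finrank k ρ.invariants : ℤ) - finrank k (C.H1 ρ) + finrank k (C.H2 ρ)

theorem equiv_comp_symm {ρ : Representation k Γ V} {σ : Representation k Γ W} (e : ρ.Equiv σ) :
    e.toIntertwiningMap.comp e.symm.toIntertwiningMap = IntertwiningMap.id σ := by
  apply IntertwiningMap.ext
  ext x
  exact e.apply_symm_apply x

theorem equiv_symm_comp {ρ : Representation k Γ V} {σ : Representation k Γ W} (e : ρ.Equiv σ) :
    e.symm.toIntertwiningMap.comp e.toIntertwiningMap = IntertwiningMap.id ρ := by
  apply IntertwiningMap.ext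
  ext x
  exact e.symm_apply_apply x

/-- isomorphic representations have isomorphic cohomology -/
def equivH1 {ρ : Representation k Γ V} {σ : Representation k Γ W} (e : ρ.Equiv σ) :
    C.H1 ρ ≃ₗ[k] C.H1 σ :=
  LinearEquiv.ofLinearMap (C.map1 e.toIntertwiningMap) (C.map1 e.symm.toIntertwiningMap)
    (by rw [← C.map1_comp, equiv_comp_symm, C.map1_id])
    (by rw [← C.map1_comp, equiv_symm_comp, C.map1_id])

@[simp] theorem equivH1_apply {ρ : Representation k Γ V} {σ : Representation k Γ W}
    (e : ρ.Equiv σ) (x : C.H1 ρ) : C.equivH1 e x = C.map1 e.toIntertwiningMap x := rfl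

def equivH2 {ρ : Representation k Γ V} {σ : Representation k Γ W} (e : ρ.Equiv σ) :
    C.H2 ρ ≃ₗ[k] C.H2 σ :=
  LinearEquiv.ofLinearMap (C.map2 e.toIntertwiningMap) (C.map2 e.symm.toIntertwiningMap)
    (by rw [← C.map2_comp, equiv_comp_symm, C.map2_id])
    (by rw [← C.map2_comp, equiv_symm_comp, C.map2_id])

@[simp] theorem equivH2_apply {ρ : Representation k Γ V} {σ : Representation k Γ W}
    (e : ρ.Equiv σ) (x : C.H2 ρ) : C.equivH2 e x = C.map2 e.toIntertwiningMap x := rfl

def equivInv {ρ : Representation k Γ V} {σ : Representation k Γ W} (e : ρ.Equiv σ) :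
    ρ.invariants ≃ₗ[k] σ.invariants :=
  LinearEquiv.ofLinearMap (invMap e.toIntertwiningMap) (invMap e.symm.toIntertwiningMap)
    (by
      ext x
      exact e.apply_symm_apply (x : W))
    (by
      ext x
      exact e.symm_apply_apply (x : V))

theorem FinCoh.of_equiv {ρ : Representation k Γ V} {σ : Representation k Γ W} (e : ρ.Equiv σ)
    (h : C.FinCoh ρ) : C.FinCoh σ := by
  obtain ⟨h1, h2⟩ := h
  exact ⟨Module.Finite.equiv (C.equivH1 e), Module.Finite.equiv (C.equivH2 e)⟩

theorem chi_of_equiv {ρ : Representation k Γ V} {σ : Representation k Γ W} (e : ρ.Equiv σ) :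
    C.chi ρ = C.chi σ := by
  unfold chi
  rw [(equivInv e).finrank_eq, (C.equivH1 e).finrank_eq, (C.equivH2 e).finrank_eq]

variable {R P M : Type} [AddCommGroup R] [Module k R] [AddCommGroup P] [Module k P]
  [AddCommGroup M] [Module k M] {ρR : Representation k Γ R} {ρP : Representation k Γ P}
  {ρM : Representation k Γ M}

theorem FinCoh.mid (S : SES ρR ρP ρM) (hP : C.IsOpen ρP.ker) (hR : C.FinCoh ρR)
    (hM : C.FinCoh ρM) : C.FinCoh ρP := by
  obtain ⟨hR1, hR2⟩ := hR
  obtain ⟨hM1, hM2⟩ := hM
  exact ⟨finite_of_exact _ _ (C.exact_map1_map1 S hP), finite_of_exact _ _ (C.exact_map2_map2 S hP)⟩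

theorem finite_H1_left (S : SES ρR ρP ρM) (hP : C.IsOpen ρP.ker) [Module.Finite k M]
    (h1 : Module.Finite k (C.H1 ρP)) : Module.Finite k (C.H1 ρR) :=
  finite_of_exact _ _ (C.exact_δ0_map1 S hP)

theorem finite_H2_left (S : SES ρR ρP ρM) (hP : C.IsOpen ρP.ker)
    (h1 : Module.Finite k (C.H1 ρM)) (h2 : Module.Finite k (C.H2 ρP)) :
    Module.Finite k (C.H2 ρR) :=
  finite_of_exact _ _ (C.exact_δ1_map2 S hP)

/-- THE KEY FORMULA: `χ(R) + χ(M) = χ(P) + dim coker(H²P → H²M)` -/
theorem chi_add (S : SES ρR ρP ρM) (hP : C.IsOpen ρP.ker) [Module.Finite k P]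
    (hR : C.FinCoh ρR) (hPf : C.FinCoh ρP) (hM : C.FinCoh ρM) :
    C.chi ρR + C.chi ρM = C.chi ρP +
      ((finrank k (C.H2 ρM) : ℤ) - finrank k (LinearMap.range (C.map2 S.π))) := by
  obtain ⟨hR1, hR2⟩ := hR
  obtain ⟨hP1, hP2⟩ := hPf
  obtain ⟨hM1, hM2⟩ := hM
  have := S.chi_finite_left
  have := S.chi_finite_right
  have e0 := finrank_range_of_injective (invMap S.i) S.invMap_injective
  have e1 := finrank_eq_of_exact _ _ S.invMap_exact
  have e2 := finrank_eq_of_exact _ _ (C.exact_inv_δ0 S hP)
  have e3 := finrank_eq_of_exact _ _ (C.exact_δ0_map1 S hP)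
  have e4 := finrank_eq_of_exact _ _ (C.exact_map1_map1 S hP)
  have e5 := finrank_eq_of_exact _ _ (C.exact_map1_δ1 S hP)
  have e6 := finrank_eq_of_exact _ _ (C.exact_δ1_map2 S hP)
  have e7 := finrank_eq_of_exact _ _ (C.exact_map2_map2 S hP)
  unfold chi
  omega

theorem chi_le (S : SES ρR ρP ρM) (hP : C.IsOpen ρP.ker) [Module.Finite k P]
    (hR : C.FinCoh ρR) (hPf : C.FinCoh ρP) (hM : C.FinCoh ρM) :
    C.chi ρP ≤ C.chi ρR + C.chi ρM := by
  have h := C.chi_add S hP hR hPf hM
  have := hM.2
  have h2 : finrank k (LinearMap.range (C.map2 S.π)) ≤ finrank k (C.H2 ρM) :=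
    Submodule.finrank_le _
  omega

theorem map2_surjective_of_chi_eq (S : SES ρR ρP ρM) (hP : C.IsOpen ρP.ker) [Module.Finite k P]
    (hR : C.FinCoh ρR) (hPf : C.FinCoh ρP) (hM : C.FinCoh ρM)
    (h : C.chi ρR + C.chi ρM ≤ C.chi ρP) : Function.Surjective (C.map2 S.π) := by
  have h1 := C.chi_add S hP hR hPf hM
  have := hM.2
  have h2 : finrank k (LinearMap.range (C.map2 S.π)) ≤ finrank k (C.H2 ρM) :=
    Submodule.finrank_le _
  rw [← LinearMap.range_eq_top]
  apply Submodule.eq_top_of_finrank_eq
  omega

theorem map2_surjective_of_section (π : ρP.IntertwiningMap ρM) (s : ρM.IntertwiningMap ρP)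
    (hs : ∀ x, π (s x) = x) : Function.Surjective (C.map2 π) := by
  have h : π.comp s = IntertwiningMap.id ρM := by
    apply IntertwiningMap.ext
    ext x
    exact hs x
  intro y
  refine ⟨C.map2 s y, ?_⟩
  have := C.map2_comp π s
  rw [h, C.map2_id] at this
  exact (LinearMap.congr_fun this y).symm

theorem chi_of_split (S : SES ρR ρP ρM) (hP : C.IsOpen ρP.ker) [Module.Finite k P]
    (hR : C.FinCoh ρR) (hM : C.FinCoh ρM) (s : ρM.IntertwiningMap ρP) (hs : ∀ x, S.π (s x) = x) :
    C.chi ρP = C.chi ρR + C.chi ρM := by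
  have h := C.chi_add S hP hR (FinCoh.mid C S hP hR hM) hM
  have h2 := LinearMap.range_eq_top.2 (C.map2_surjective_of_section S.π s hs)
  rw [h2, finrank_top] at h
  omega

end CohTheory

end

end Fermat.Agent.S55.F
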