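/-
S55 / F-abs / LOC : the local theory.  From the numbers `h¹(X_U) = 2 + d [D:U]`, `h²(X_U) = 1`
(`U` open, trivial on `μ`) and `H²(μ) ≠ 0`: finiteness, right exactness of `H²`, and
`H²(N) ≅ Hom_D(N, μ)^∨`.
-/
import Fermat.Agent.S55.F.SW.Main
import Fermat.Agent.S55.F.DU.Main

set_option autoImplicit false

namespace Fermat.Agent.S55.F

open Representation Module

noncomputable section

variable {p : ℕ} [Fact p.Prime] {D : Type} [Group D]

/-- the local numerical input -/
structure LocalNumbers (C : CohTheory (ZMod p) D) (ω : D →* (ZMod p)ˣ) (d : ℕ) : Prop where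
  ω_open : C.IsOpen ω.ker
  fin : ∀ U : Subgroup D, C.IsOpen U → U ≤ ω.ker → C.FinCoh (X (ZMod p) U)
  h1 : ∀ U : Subgroup D, C.IsOpen U → U ≤ ω.ker →
    finrank (ZMod p) (C.H1 (X (ZMod p) U)) = 2 + d * U.index
  h2 : ∀ U : Subgroup D, C.IsOpen U → U ≤ ω.ker → finrank (ZMod p) (C.H2 (X (ZMod p) U)) = 1
  h2mu : Nontrivial (C.H2 (mu ω))

variable {C : CohTheory (ZMod p) D} {ω : D →* (ZMod p)ˣ} {d : ℕ} (h : LocalNumbers C ω d)
variable {N : Type} [AddCommGroup N] [Module (ZMod p) N]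

include h

theorem LocalNumbers.chi_X (U : Subgroup D) (hU : C.IsOpen U) (hUω : U ≤ ω.ker) :
    C.chi (X (ZMod p) U) = -((d : ℤ) * U.index) := by
  rw [CohTheory.chi, finrank_invariants_X, h.h1 U hU hUω, h.h2 U hU hUω]
  push_cast
  ring

theorem LocalNumbers.mult : Mult C ω.ker where
  fin := h.fin
  mul U U' hU' hle hU := by
    rw [h.chi_X U' hU' (hle.trans hU), h.chi_X U (C.isOpen_mono hle hU') hU,
      ← Subgroup.relIndex_mul_index hle]
    push_cast
    ring

theorem LocalNumbers.finCoh [Module.Finite (ZMod p) N] (ρ : Representation (ZMod p) D N)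
    (hρ : C.IsOpen ρ.ker) : C.FinCoh ρ := SW.finCoh C h.ω_open h.fin ρ hρ

theorem LocalNumbers.map2_surjective
    {R P M : Type} [AddCommGroup R] [Module (ZMod p) R] [AddCommGroup P] [Module (ZMod p) P]
    [AddCommGroup M] [Module (ZMod p) M] [Module.Finite (ZMod p) P]
    {ρR : Representation (ZMod p) D R} {ρP : Representation (ZMod p) D P}
    {ρM : Representation (ZMod p) D M} (S : SES ρR ρP ρM) (hP : C.IsOpen ρP.ker) :
    Function.Surjective (C.map2 S.π) :=
  SW.main C h.ω_open (not_dvd_index_ker ω) h.mult S hP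

/-- `H²` of the local group as a right exact functor -/
def LocalNumbers.rfun : RFun C :=
  RFun.ofH2 C (fun ρ hρ => (h.finCoh ρ hρ).2) (fun S hP => h.map2_surjective S hP)

/-- local duality: for any nonzero `tr : H²(μ) → k` -/
theorem LocalNumbers.alpha_bijective (tr : C.H2 (mu ω) →ₗ[ZMod p] ZMod p) (htr : tr ≠ 0)
    [Module.Finite (ZMod p) N] (ρ : Representation (ZMod p) D N) (hρ : C.IsOpen ρ.ker) :
    Function.Bijective (h.rfun.alpha ω tr ρ) :=
  RFun.alpha_bijective h.rfun ω h.ω_open tr htr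
    (fun U hU hUω => (h.h2 U hU hUω).le) ρ hρ

theorem LocalNumbers.finrank_H2 [Module.Finite (ZMod p) N] (ρ : Representation (ZMod p) D N)
    (hρ : C.IsOpen ρ.ker) :
    finrank (ZMod p) (C.H2 ρ) = finrank (ZMod p) (ρ.IntertwiningMap (mu ω)) :=
  RFun.finrank_eq h.rfun ω h.ω_open h.h2mu (fun U hU hUω => (h.h2 U hU hUω).le) ρ hρ

omit h in
theorem Local.ker_le_ker_mu (ω : D →* (ZMod p)ˣ) : ω.ker ≤ (mu ω).ker := by
  intro g hg
  rw [MonoidHom.mem_ker] at hg ⊢
  ext
  simp [Representation.twist_apply_apply, hg]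

omit h in
theorem Local.finrank_end_mu (ω : D →* (ZMod p)ˣ) :
    finrank (ZMod p) ((mu ω).IntertwiningMap (mu ω)) = 1 := by
  refine finrank_eq_one (IntertwiningMap.id (mu ω)) ?_ ?_
  · intro h0
    have := congrArg (fun f : (mu ω).IntertwiningMap (mu ω) => f 1) h0
    simp at this
  · intro f
    refine ⟨f 1, ?_⟩
    apply IntertwiningMap.ext
    apply LinearMap.ext_ring
    simp

theorem LocalNumbers.finrank_H2_mu : finrank (ZMod p) (C.H2 (mu ω)) = 1 := by
  rw [h.finrank_H2 (mu ω) (C.isOpen_mono (Local.ker_le_ker_mu ω) h.ω_open)]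
  exact Local.finrank_end_mu ω

end

end Fermat.Agent.S55.F
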