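/-
S55 / F-abs / Defs : `Ш¹`, `Ш²`, `P^i`, `T³`, the number of places `s(U)`, and the numerical
hypotheses `Numbers` of the abstract Poitou-Tate theorem.
-/
import Fermat.Agent.S55.F.Local

set_option autoImplicit false

namespace Fermat.Agent.S55.F

open Representation Module

noncomputable section

namespace Datum

variable {p : ℕ} [Fact p.Prime] (A : Datum p)
variable {N N' : Type} [AddCommGroup N] [Module (ZMod p) N] [AddCommGroup N'] [Module (ZMod p) N']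

/-- `P¹(N) = ∏_v H¹(D_v, N)` -/
abbrev P1 (ρ : Representation (ZMod p) A.G N) : Type := ∀ v, (A.CD v).H1 (res (A.r v) ρ)

/-- `P²(N) = ∏_v H²(D_v, N)` -/
abbrev P2 (ρ : Representation (ZMod p) A.G N) : Type := ∀ v, (A.CD v).H2 (res (A.r v) ρ)

def locTot1 (ρ : Representation (ZMod p) A.G N) : A.CG.H1 ρ →ₗ[ZMod p] A.P1 ρ :=
  LinearMap.pi fun v => (A.loc v).loc1 ρ

def locTot2 (ρ : Representation (ZMod p) A.G N) : A.CG.H2 ρ →ₗ[ZMod p] A.P2 ρ :=
  LinearMap.pi fun v => (A.loc v).loc2 ρ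

@[simp] lemma locTot1_apply (ρ : Representation (ZMod p) A.G N) (x : A.CG.H1 ρ) (v : A.ι) :
    A.locTot1 ρ x v = (A.loc v).loc1 ρ x := rfl

@[simp] lemma locTot2_apply (ρ : Representation (ZMod p) A.G N) (x : A.CG.H2 ρ) (v : A.ι) :
    A.locTot2 ρ x v = (A.loc v).loc2 ρ x := rfl

/-- `Ш¹` -/
def sha1 (ρ : Representation (ZMod p) A.G N) : Submodule (ZMod p) (A.CG.H1 ρ) :=
  LinearMap.ker (A.locTot1 ρ)

/-- `Ш²` -/
def sha2 (ρ : Representation (ZMod p) A.G N) : Submodule (ZMod p) (A.CG.H2 ρ) :=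
  LinearMap.ker (A.locTot2 ρ)

/-- functoriality of `P¹`, `P²` -/
def P1map {ρ : Representation (ZMod p) A.G N} {σ : Representation (ZMod p) A.G N'}
    (f : ρ.IntertwiningMap σ) : A.P1 ρ →ₗ[ZMod p] A.P1 σ :=
  LinearMap.pi fun v => (A.CD v).map1 (resMap (A.r v) f) ∘ₗ LinearMap.proj v

def P2map {ρ : Representation (ZMod p) A.G N} {σ : Representation (ZMod p) A.G N'}
    (f : ρ.IntertwiningMap σ) : A.P2 ρ →ₗ[ZMod p] A.P2 σ :=
  LinearMap.pi fun v => (A.CD v).map2 (resMap (A.r v) f) ∘ₗ LinearMap.proj v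

@[simp] lemma P1map_apply {ρ : Representation (ZMod p) A.G N} {σ : Representation (ZMod p) A.G N'}
    (f : ρ.IntertwiningMap σ) (z : A.P1 ρ) (v : A.ι) :
    A.P1map f z v = (A.CD v).map1 (resMap (A.r v) f) (z v) := rfl

@[simp] lemma P2map_apply {ρ : Representation (ZMod p) A.G N} {σ : Representation (ZMod p) A.G N'}
    (f : ρ.IntertwiningMap σ) (z : A.P2 ρ) (v : A.ι) :
    A.P2map f z v = (A.CD v).map2 (resMap (A.r v) f) (z v) := rfl

/-- `T³(N) = coker (loc² : H²(G,N) → P²(N))` -/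
abbrev T3 (ρ : Representation (ZMod p) A.G N) : Type :=
  A.P2 ρ ⧸ LinearMap.range (A.locTot2 ρ)

/-- the number of places of `U` : `s(U) = ∑_v dim (X_U)^{D_v}` -/
def s (U : Subgroup A.G) : ℕ :=
  ∑ v, finrank (ZMod p) (res (A.r v) (X (ZMod p) U)).invariants

/-- THE NUMERICAL HYPOTHESES -/
structure Numbers : Prop where
  ne : Nonempty A.ι
  loc : ∀ v, LocalNumbers (A.CD v) (A.ω.comp (A.r v)) (A.dl v)
  n1_fin1 : ∀ U : Subgroup A.G, A.CG.IsOpen U → U ≤ A.ω.ker →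
    Module.Finite (ZMod p) (A.CG.H1 (X (ZMod p) U))
  n1_fin2 : ∀ U : Subgroup A.G, A.CG.IsOpen U → U ≤ A.ω.ker →
    Module.Finite (ZMod p) (A.sha2 (X (ZMod p) U))
  n1 : ∀ U : Subgroup A.G, A.CG.IsOpen U → U ≤ A.ω.ker →
    2 * finrank (ZMod p) (A.CG.H1 (X (ZMod p) U)) =
      2 * finrank (ZMod p) (A.sha2 (X (ZMod p) U)) + U.index + 2 * A.s U
  n2 : ∀ (x : A.CG.H2 (mu A.ω)) (v : A.ι),
    (∀ w, w ≠ v → (A.loc w).loc2 (mu A.ω) x = 0) → (A.loc v).loc2 (mu A.ω) x = 0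
  n3 : ∀ U : Subgroup A.G, A.CG.IsOpen U → U ≤ A.ω.ker →
    ∃ (n : ℕ) (c : ℕ → Subgroup A.G), c 0 = U ∧
      (∀ i, c (i + 1) ≤ c i ∧ A.CG.IsOpen (c (i + 1)) ∧ ((c (i + 1)).subgroupOf (c i)).Normal ∧
        (c (i + 1)).relIndex (c i) = p) ∧ A.s (c n) ≤ p ^ n
  l1g : ∀ U : Subgroup A.G, A.CG.IsOpen U → U ≤ A.ω.ker →
    ∑ v, finrank (ZMod p) ((A.CD v).H1 (res (A.r v) (X (ZMod p) U))) = 2 * A.s U + U.index

/-- right exactness of the global `H²` -/
def RightExact : Prop :=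
  ∀ {R P M : Type} [AddCommGroup R] [Module (ZMod p) R] [AddCommGroup P] [Module (ZMod p) P]
    [AddCommGroup M] [Module (ZMod p) M] [Module.Finite (ZMod p) P]
    {ρR : Representation (ZMod p) A.G R} {ρP : Representation (ZMod p) A.G P}
    {ρM : Representation (ZMod p) A.G M} (S : SES ρR ρP ρM),
    A.CG.IsOpen ρP.ker → Function.Surjective (A.CG.map2 S.π)

/-- finiteness of the global cohomology -/
def FinCohG : Prop :=
  ∀ {V : Type} [AddCommGroup V] [Module (ZMod p) V] [Module.Finite (ZMod p) V]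
    (ρ : Representation (ZMod p) A.G V), A.CG.IsOpen ρ.ker → A.CG.FinCoh ρ

/-- admissibility passes to the local groups -/
theorem isOpen_ker_res (ρ : Representation (ZMod p) A.G N) (hρ : A.CG.IsOpen ρ.ker) (v : A.ι) :
    (A.CD v).IsOpen (res (A.r v) ρ).ker := (A.loc v).cont hρ

end Datum

end

end Fermat.Agent.S55.F
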