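/-
S55 / F-abs / T3 : `T³ = coker loc²` is a right exact functor (given local numbers and global right
exactness); functoriality of `Ш¹`, `Ш²`.
-/
import Fermat.Agent.S55.F.Defs

set_option autoImplicit false

namespace Fermat.Agent.S55.F

open Representation Module

noncomputable section

namespace Datum

variable {p : ℕ} [Fact p.Prime] (A : Datum p)
variable {N N' : Type} [AddCommGroup N] [Module (ZMod p) N] [AddCommGroup N'] [Module (ZMod p) N']

theorem P1map_locTot1 {ρ : Representation (ZMod p) A.G N} {σ : Representation (ZMod p) A.G N'}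
    (f : ρ.IntertwiningMap σ) (x : A.CG.H1 ρ) :
    A.P1map f (A.locTot1 ρ x) = A.locTot1 σ (A.CG.map1 f x) := by
  ext v; simp [(A.loc v).loc1_map1]

theorem P2map_locTot2 {ρ : Representation (ZMod p) A.G N} {σ : Representation (ZMod p) A.G N'}
    (f : ρ.IntertwiningMap σ) (x : A.CG.H2 ρ) :
    A.P2map f (A.locTot2 ρ x) = A.locTot2 σ (A.CG.map2 f x) := by
  ext v; simp [(A.loc v).loc2_map2]

theorem map1_mem_sha1 {ρ : Representation (ZMod p) A.G N} {σ : Representation (ZMod p) A.G N'}
    (f : ρ.IntertwiningMap σ) {x : A.CG.H1 ρ} (hx : x ∈ A.sha1 ρ) : A.CG.map1 f x ∈ A.sha1 σ := by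
  rw [sha1, LinearMap.mem_ker] at hx ⊢
  rw [← P1map_locTot1, hx, map_zero]

theorem map2_mem_sha2 {ρ : Representation (ZMod p) A.G N} {σ : Representation (ZMod p) A.G N'}
    (f : ρ.IntertwiningMap σ) {x : A.CG.H2 ρ} (hx : x ∈ A.sha2 ρ) : A.CG.map2 f x ∈ A.sha2 σ := by
  rw [sha2, LinearMap.mem_ker] at hx ⊢
  rw [← P2map_locTot2, hx, map_zero]

/-- isomorphic representations have isomorphic `Ш` -/
theorem finrank_sha1_of_equiv {ρ : Representation (ZMod p) A.G N}
    {σ : Representation (ZMod p) A.G N'} (e : ρ.Equiv σ) :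
    finrank (ZMod p) (A.sha1 ρ) = finrank (ZMod p) (A.sha1 σ) := by
  have hmap : (A.sha1 ρ).map (A.CG.equivH1 e).toLinearMap = A.sha1 σ := by
    apply le_antisymm
    · rintro _ ⟨x, hx, rfl⟩
      exact A.map1_mem_sha1 e.toIntertwiningMap hx
    · intro y hy
      refine ⟨(A.CG.equivH1 e).symm y, A.map1_mem_sha1 e.symm.toIntertwiningMap hy, ?_⟩
      exact (A.CG.equivH1 e).apply_symm_apply y
  rw [← hmap]
  exact ((A.CG.equivH1 e).submoduleMap (A.sha1 ρ)).finrank_eq

theorem finrank_sha2_of_equiv {ρ : Representation (ZMod p) A.G N}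
    {σ : Representation (ZMod p) A.G N'} (e : ρ.Equiv σ) :
    finrank (ZMod p) (A.sha2 ρ) = finrank (ZMod p) (A.sha2 σ) := by
  have hmap : (A.sha2 ρ).map (A.CG.equivH2 e).toLinearMap = A.sha2 σ := by
    apply le_antisymm
    · rintro _ ⟨x, hx, rfl⟩
      exact A.map2_mem_sha2 e.toIntertwiningMap hx
    · intro y hy
      refine ⟨(A.CG.equivH2 e).symm y, A.map2_mem_sha2 e.symm.toIntertwiningMap hy, ?_⟩
      exact (A.CG.equivH2 e).apply_symm_apply y
  rw [← hmap]
  exact ((A.CG.equivH2 e).submoduleMap (A.sha2 ρ)).finrank_eq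

/-- functoriality of `T³` -/
def T3map {ρ : Representation (ZMod p) A.G N} {σ : Representation (ZMod p) A.G N'}
    (f : ρ.IntertwiningMap σ) : A.T3 ρ →ₗ[ZMod p] A.T3 σ :=
  Submodule.mapQ _ _ (A.P2map f) (by
    rintro _ ⟨x, rfl⟩
    exact ⟨A.CG.map2 f x, (A.P2map_locTot2 f x).symm⟩)

@[simp] theorem T3map_mk {ρ : Representation (ZMod p) A.G N} {σ : Representation (ZMod p) A.G N'}
    (f : ρ.IntertwiningMap σ) (z : A.P2 ρ) :
    A.T3map f (Submodule.Quotient.mk z) = Submodule.Quotient.mk (A.P2map f z) := rfl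

/-! ### linearity and functoriality of `resMap`, `P2map` -/

theorem resMap_add' {D : Type} [Group D] (r : D →* A.G) {ρ : Representation (ZMod p) A.G N}
    {σ : Representation (ZMod p) A.G N'} (f g : ρ.IntertwiningMap σ) :
    resMap r (f + g) = resMap r f + resMap r g := rfl

theorem resMap_smul' {D : Type} [Group D] (r : D →* A.G) {ρ : Representation (ZMod p) A.G N}
    {σ : Representation (ZMod p) A.G N'} (c : ZMod p) (f : ρ.IntertwiningMap σ) :
    resMap r (c • f) = c • resMap r f := rfl

theorem resMap_id' {D : Type} [Group D] (r : D →* A.G) (ρ : Representation (ZMod p) A.G N) :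
    resMap r (IntertwiningMap.id ρ) = IntertwiningMap.id (res r ρ) := rfl

theorem resMap_comp' {D : Type} [Group D] (r : D →* A.G) {N'' : Type} [AddCommGroup N'']
    [Module (ZMod p) N''] {ρ : Representation (ZMod p) A.G N}
    {σ : Representation (ZMod p) A.G N'} {τ : Representation (ZMod p) A.G N''}
    (g : σ.IntertwiningMap τ) (f : ρ.IntertwiningMap σ) :
    resMap r (g.comp f) = (resMap r g).comp (resMap r f) := rfl

theorem P2map_add {ρ : Representation (ZMod p) A.G N} {σ : Representation (ZMod p) A.G N'}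
    (f g : ρ.IntertwiningMap σ) : A.P2map (f + g) = A.P2map f + A.P2map g := by
  ext z v
  simp only [P2map_apply, LinearMap.add_apply, Pi.add_apply, A.resMap_add', map_add]

theorem P2map_smul {ρ : Representation (ZMod p) A.G N} {σ : Representation (ZMod p) A.G N'}
    (c : ZMod p) (f : ρ.IntertwiningMap σ) : A.P2map (c • f) = c • A.P2map f := by
  ext z v
  simp only [P2map_apply, LinearMap.smul_apply, Pi.smul_apply, A.resMap_smul', map_smul]

theorem P2map_id (ρ : Representation (ZMod p) A.G N) :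
    A.P2map (IntertwiningMap.id ρ) = LinearMap.id := by
  ext z v
  simp only [P2map_apply, A.resMap_id', (A.CD v).map2_id, LinearMap.id_apply]

theorem P2map_comp {N'' : Type} [AddCommGroup N''] [Module (ZMod p) N'']
    {ρ : Representation (ZMod p) A.G N} {σ : Representation (ZMod p) A.G N'}
    {τ : Representation (ZMod p) A.G N''} (g : σ.IntertwiningMap τ) (f : ρ.IntertwiningMap σ) :
    A.P2map (g.comp f) = A.P2map g ∘ₗ A.P2map f := by
  ext z v
  simp only [P2map_apply, A.resMap_comp', (A.CD v).map2_comp, LinearMap.comp_apply]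

variable {A}

/-- `P²` is finite dimensional -/
theorem Numbers.finite_P2 (hN : A.Numbers) [Module.Finite (ZMod p) N]
    (ρ : Representation (ZMod p) A.G N) (hρ : A.CG.IsOpen ρ.ker) :
    Module.Finite (ZMod p) (A.P2 ρ) := by
  have : ∀ v, Module.Finite (ZMod p) ((A.CD v).H2 (res (A.r v) ρ)) := fun v =>
    ((hN.loc v).finCoh _ (A.isOpen_ker_res ρ hρ v)).2
  exact Module.Finite.pi

theorem Numbers.finite_P1 (hN : A.Numbers) [Module.Finite (ZMod p) N]
    (ρ : Representation (ZMod p) A.G N) (hρ : A.CG.IsOpen ρ.ker) :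
    Module.Finite (ZMod p) (A.P1 ρ) := by
  have : ∀ v, Module.Finite (ZMod p) ((A.CD v).H1 (res (A.r v) ρ)) := fun v =>
    ((hN.loc v).finCoh _ (A.isOpen_ker_res ρ hρ v)).1
  exact Module.Finite.pi

/-- `P²` is right exact -/
theorem Numbers.P2map_surjective (hN : A.Numbers)
    {R P M : Type} [AddCommGroup R] [Module (ZMod p) R] [AddCommGroup P] [Module (ZMod p) P]
    [AddCommGroup M] [Module (ZMod p) M] [Module.Finite (ZMod p) P]
    {ρR : Representation (ZMod p) A.G R} {ρP : Representation (ZMod p) A.G P}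
    {ρM : Representation (ZMod p) A.G M} (S : SES ρR ρP ρM) (hP : A.CG.IsOpen ρP.ker) :
    Function.Surjective (A.P2map S.π) := by
  intro y
  have h : ∀ v, ∃ x, (A.CD v).map2 (resMap (A.r v) S.π) x = y v := fun v =>
    (hN.loc v).map2_surjective (S.res (A.r v)) (A.isOpen_ker_res ρP hP v) (y v)
  choose x hx using h
  exact ⟨x, funext fun v => hx v⟩

theorem P2map_exact (A : Datum p)
    {R P M : Type} [AddCommGroup R] [Module (ZMod p) R] [AddCommGroup P] [Module (ZMod p) P]
    [AddCommGroup M] [Module (ZMod p) M]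
    {ρR : Representation (ZMod p) A.G R} {ρP : Representation (ZMod p) A.G P}
    {ρM : Representation (ZMod p) A.G M} (S : SES ρR ρP ρM) (hP : A.CG.IsOpen ρP.ker) :
    Function.Exact (A.P2map S.i) (A.P2map S.π) := by
  have hex : ∀ v, Function.Exact ((A.CD v).map2 (resMap (A.r v) S.i))
      ((A.CD v).map2 (resMap (A.r v) S.π)) := fun v =>
    (A.CD v).exact_map2_map2 (S.res (A.r v)) (A.isOpen_ker_res ρP hP v)
  intro y
  constructor
  · intro hy
    have h : ∀ v, ∃ x, (A.CD v).map2 (resMap (A.r v) S.i) x = y v := fun v =>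
      (hex v (y v)).1 (congrFun hy v)
    choose x hx using h
    exact ⟨x, funext fun v => hx v⟩
  · rintro ⟨x, rfl⟩
    funext v
    exact (hex v _).2 ⟨x v, rfl⟩

/-- `T³` as a right exact functor -/
def Numbers.T3fun (hN : A.Numbers) (hR : A.RightExact) : RFun A.CG where
  T := fun ρ => ModuleCat.of (ZMod p) (A.T3 ρ)
  map :=
    { toFun := fun f => A.T3map f
      map_add' := fun f g => by
        apply Submodule.linearMap_qext
        ext z
        simp only [LinearMap.comp_apply, Submodule.mkQ_apply, T3map_mk, A.P2map_add,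
          LinearMap.add_apply, Submodule.Quotient.mk_add]
      map_smul' := fun c f => by
        apply Submodule.linearMap_qext
        ext z
        simp only [LinearMap.comp_apply, Submodule.mkQ_apply, T3map_mk, A.P2map_smul,
          LinearMap.smul_apply, Submodule.Quotient.mk_smul, RingHom.id_apply] }
  map_id := fun ρ => by
    apply Submodule.linearMap_qext
    ext z
    simp only [LinearMap.coe_mk, AddHom.coe_mk, LinearMap.comp_apply, Submodule.mkQ_apply,
      T3map_mk, A.P2map_id, LinearMap.id_apply]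
  map_comp := fun g f => by
    apply Submodule.linearMap_qext
    ext z
    simp only [LinearMap.coe_mk, AddHom.coe_mk, LinearMap.comp_apply, Submodule.mkQ_apply,
      T3map_mk, A.P2map_comp]
  fin := fun ρ hρ => by
    have := hN.finite_P2 ρ hρ
    exact Module.Finite.quotient (ZMod p) _
  exact := fun {R P M} _ _ _ _ _ _ _ {ρR ρP ρM} S hP => by
    intro y
    obtain ⟨y, rfl⟩ := Submodule.Quotient.mk_surjective _ y
    constructor
    · intro hy
      have hy' : A.P2map S.π y ∈ LinearMap.range (A.locTot2 ρM) :=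
        (Submodule.Quotient.mk_eq_zero _).1 hy
      obtain ⟨m, hm⟩ := hy'
      obtain ⟨m', rfl⟩ := hR S hP m
      have hker : A.P2map S.π (y - A.locTot2 ρP m') = 0 := by
        rw [map_sub, A.P2map_locTot2, hm, sub_self]
      obtain ⟨x, hx⟩ := (A.P2map_exact S hP _).1 hker
      refine ⟨Submodule.Quotient.mk x, ?_⟩
      change Submodule.Quotient.mk (A.P2map S.i x) = Submodule.Quotient.mk y
      rw [hx, Submodule.Quotient.mk_sub, sub_eq_self, Submodule.Quotient.mk_eq_zero]
      exact ⟨m', rfl⟩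
    · rintro ⟨x, hx⟩
      obtain ⟨x, rfl⟩ := Submodule.Quotient.mk_surjective _ x
      rw [← hx]
      change Submodule.Quotient.mk (A.P2map S.π (A.P2map S.i x)) = 0
      rw [(A.P2map_exact S hP _).2 ⟨x, rfl⟩, Submodule.Quotient.mk_zero]
  surj := fun {R P M} _ _ _ _ _ _ _ {ρR ρP ρM} S hP => by
    intro y
    obtain ⟨y, rfl⟩ := Submodule.Quotient.mk_surjective _ y
    obtain ⟨x, rfl⟩ := hN.P2map_surjective S hP y
    exact ⟨Submodule.Quotient.mk x, rfl⟩

end Datum

end

end Fermat.Agent.S55.F
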