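/-
S55 / F-abs / GD : global duality.  There are nonzero `tr_v : H²(D_v, μ) → 𝔽_p` such that for every
admissible finite `N` the image of `loc²` in `P²(N)` is the annihilator of `Hom_G(N, μ)`.
-/
import Fermat.Agent.S55.F.Eps.Main

set_option autoImplicit false

namespace Fermat.Agent.S55.F

open Representation Module

noncomputable section

namespace Datum

variable {p : ℕ} [Fact p.Prime] {A : Datum p}

theorem isOpen_ker_muG (A : Datum p) : A.CG.IsOpen (mu A.ω).ker :=
  A.CG.isOpen_mono (Local.ker_le_ker_mu A.ω) A.ω_open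

theorem Numbers.finrank_T3_mu (hN : A.Numbers) : finrank (ZMod p) (A.T3 (mu A.ω)) = 1 := by
  have hfi : A.ω.ker.FiniteIndex := A.CG.finiteIndex A.ω_open
  have h1 := hN.finite_P2 (mu A.ω) A.isOpen_ker_muG
  have h2 := hN.finite_P2 (X (ZMod p) A.ω.ker) (isOpen_ker_X A.CG A.ω_open)
  have h3 := hN.nontrivial_T3_mu
  obtain ⟨f, hf⟩ := hN.exists_T3map_surjective A.ω_open le_rfl
  have h4 := LinearMap.finrank_le_finrank_of_surjective hf
  rw [hN.finrank_T3_X A.ω_open le_rfl] at h4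
  have h5 : 0 < finrank (ZMod p) (A.T3 (mu A.ω)) := Module.finrank_pos
  omega

theorem Numbers.duality (hN : A.Numbers) :
    ∃ trv : ∀ v, (A.CD v).H2 (res (A.r v) (mu A.ω)) →ₗ[ZMod p] ZMod p, (∀ v, trv v ≠ 0) ∧
      ∀ {N : Type} [AddCommGroup N] [Module (ZMod p) N] [Module.Finite (ZMod p) N]
        (ρ : Representation (ZMod p) A.G N), A.CG.IsOpen ρ.ker → ∀ z : A.P2 ρ,
        (z ∈ LinearMap.range (A.locTot2 ρ) ↔
          ∀ φ : ρ.IntertwiningMap (mu A.ω),
            ∑ v, trv v ((A.CD v).map2 (resMap (A.r v) φ) (z v)) = 0) := by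
  classical
  have h1 := hN.finite_P2 (mu A.ω) A.isOpen_ker_muG
  let e : A.T3 (mu A.ω) ≃ₗ[ZMod p] ZMod p :=
    LinearEquiv.ofFinrankEq _ _ (by rw [hN.finrank_T3_mu, finrank_self])
  let q : A.P2 (mu A.ω) →ₗ[ZMod p] ZMod p :=
    e.toLinearMap ∘ₗ (LinearMap.range (A.locTot2 (mu A.ω))).mkQ
  refine ⟨fun v => q ∘ₗ LinearMap.single (ZMod p) (fun w => (A.CD w).H2 (res (A.r w) (mu A.ω))) v, fun v => ?_, ?_⟩
  · have hnt : Nontrivial ((A.CD v).H2 (res (A.r v) (mu A.ω))) := (hN.loc v).h2mu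
    obtain ⟨x, hx⟩ := exists_ne (0 : (A.CD v).H2 (res (A.r v) (mu A.ω)))
    intro h0
    have h2 := LinearMap.congr_fun h0 x
    have h3 : e (Submodule.Quotient.mk (Pi.single v x)) = 0 := h2
    rw [LinearEquiv.map_eq_zero_iff] at h3
    exact hN.single_mk_ne_zero v x hx h3
  · intro N _ _ _ ρ hρ z
    have htr : (e.toLinearMap : A.T3 (mu A.ω) →ₗ[ZMod p] ZMod p) ≠ 0 := by
      intro h0
      have := hN.nontrivial_T3_mu
      obtain ⟨x, hx⟩ := exists_ne (0 : A.T3 (mu A.ω))
      have h2 := LinearMap.congr_fun h0 x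
      have h3 : e x = 0 := h2
      rw [LinearEquiv.map_eq_zero_iff] at h3
      exact hx h3
    have hbij := RFun.alpha_bijective (hN.T3fun hN.rightExact) A.ω A.ω_open e.toLinearMap htr
      (fun U hU hUω => (hN.finrank_T3_X hU hUω).le) ρ hρ
    have hsum : ∀ φ : ρ.IntertwiningMap (mu A.ω),
        ∑ v, (q ∘ₗ LinearMap.single (ZMod p) (fun w => (A.CD w).H2 (res (A.r w) (mu A.ω))) v) ((A.CD v).map2 (resMap (A.r v) φ) (z v)) =
          e (A.T3map φ (Submodule.Quotient.mk z)) := by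
      intro φ
      rw [T3map_mk]
      have h2 : A.P2map φ z = ∑ v, Pi.single v ((A.CD v).map2 (resMap (A.r v) φ) (z v)) := by
        rw [Finset.univ_sum_single]
        rfl
      have h3 : e (Submodule.Quotient.mk (A.P2map φ z)) = q (A.P2map φ z) := rfl
      rw [h3, h2, map_sum]
      rfl
    have hz : z ∈ LinearMap.range (A.locTot2 ρ) ↔
        (Submodule.Quotient.mk z : A.T3 ρ) = 0 := (Submodule.Quotient.mk_eq_zero _).symm
    rw [hz]
    constructor
    · intro h0 φ
      rw [hsum, h0, map_zero, map_zero]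
    · intro h0
      have h5 : (hN.T3fun hN.rightExact).alpha A.ω e.toLinearMap ρ
          (Submodule.Quotient.mk z : A.T3 ρ) = 0 := by
        ext φ
        have := h0 φ
        rw [hsum] at this
        exact this
      exact (map_eq_zero_iff _ hbij.1).1 h5

end Datum

end

end Fermat.Agent.S55.F
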